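import Mathlib
import Fermat.Agent.Ell.Z8
import Fermat.Agent.H26_Wiring
import Fermat.Agent.H12.LL.RDW2

/-!
# Phase two: the modularity of all semistable curves (the open propositions)
-/

set_option autoImplicit false

namespace Fermat.Agent.P2

open WeierstrassCurve Fermat.Agent.Ell Fermat.Agent.H12.LL

/-- **The goal**: every semistable curve is modular of exact conductor level. -/
def Full : Prop := ∀ W : WeierstrassCurve ℤ, W.Δ ≠ 0 → W.IsSemistableModel →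
  Mlc1IsModularModelOfExactConductorLevel W

/-- `W'` is congruent to `W` modulo `p`, away from `2` -/
def Congr2 (p : ℕ) (W W' : WeierstrassCurve ℤ) : Prop :=
  ∀ ℓ : ℕ, ℓ.Prime → ℓ ≠ 2 → ℓ ≠ p → W.IsGoodPrimeFor ℓ → W'.IsGoodPrimeFor ℓ →
    (p : ℤ) ∣ (W'.apOfModel ℓ - W.apOfModel ℓ)

/-- `W[p]` is residually modular of a squarefree even level, with control at `p`. -/
def RMeven (p : ℕ) (W : WeierstrassCurve ℤ) : Prop :=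
  ∃ N : ℕ, 0 < N ∧ Squarefree N ∧ 2 ∣ N ∧ (p ∣ N → (p : ℤ) ∣ W.Δ) ∧
    W.IsResiduallyModularOfLevel p N

/-! ## The open inputs -/

/-- **(MZ2)** Mazur's principle at `2` (`p = 3, 5`, odd levels). -/
def Mz2 (p : ℕ) : Prop := ∀ W : WeierstrassCurve ℤ, W.Δ ≠ 0 → W.IsSemistableModel →
  W.ModRepIsIrreducible p → UnrAt W p 2 → ∀ M : ℕ, ¬ 2 ∣ M → Squarefree M →
    W.IsResiduallyModularOfLevel p (M * 2) → W.IsResiduallyModularOfLevel p M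

/-- **(LIFT, good reduction at `2`)**, `p = 3` and `p = 5`. -/
def LiftOdd (p : ℕ) : Prop := ∀ W : WeierstrassCurve ℤ, W.Δ ≠ 0 → W.IsSemistableModel →
  ¬ (2 : ℤ) ∣ W.Δ → W.ModRepIsIrreducible p → RMeven p W →
    Mlc1IsModularModelOfExactConductorLevel W

/-- **(LIFT at `3`, multiplicative reduction at `2`, `W[3]` unramified at `2`)** -/
def LiftThreeTwo : Prop := ∀ W : WeierstrassCurve ℤ, W.Δ ≠ 0 → W.IsSemistableModel →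
  (2 : ℤ) ∣ W.Δ → 3 ∣ padicValInt 2 W.Δ → W.ModRepIsIrreducible 3 → RMeven 3 W →
    Mlc1IsModularModelOfExactConductorLevel W

/-- **(Selection at `3`, multiplicative at `2`)**: `W` good at `2` with `a_2(W) = 0`; the output is
the output of `H07.Sel.selection'` (with the congruence away from `2`). -/
def Sel3Mult : Prop := ∀ W : WeierstrassCurve ℤ, W.Δ ≠ 0 → W.IsSemistableModel →
  ¬ (2 : ℤ) ∣ W.Δ → (3 : ℤ) ∣ W.apOfModel 2 → W.ModRepIsIrreducible 3 →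
  ∃ W' : WeierstrassCurve ℤ, W'.Δ < 0 ∧ W'.IsSemistableModel ∧ (2 : ℤ) ∣ W'.Δ ∧
    (∀ ℓ : ℕ, ℓ.Prime → (ℓ : ℤ) ∣ W'.Δ → Odd (padicValInt ℓ W'.Δ)) ∧
    (∃ ℓ : ℕ, ℓ.Prime ∧ ℓ % 4 = 3 ∧ (ℓ : ℤ) ∣ W'.Δ) ∧
    ((3 : ℤ) ∣ W'.Δ → (3 : ℤ) ∣ W.Δ) ∧ Congr2 3 W W'

/-- **(Selection at `3`, good at `2`)**: `W` good at `2` with `a_2(W) = ± 1, ± 2`. -/
def Sel3Good : Prop := ∀ W : WeierstrassCurve ℤ, W.Δ ≠ 0 → W.IsSemistableModel →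
  ¬ (2 : ℤ) ∣ W.Δ → ¬ (3 : ℤ) ∣ W.apOfModel 2 → W.ModRepIsIrreducible 3 →
  ∃ W' : WeierstrassCurve ℤ, W'.Δ ≠ 0 ∧ W'.IsSemistableModel ∧ ¬ (2 : ℤ) ∣ W'.Δ ∧
    (W'.apOfModel 2 = 2 ∨ W'.apOfModel 2 = -2) ∧ W'.ModRepIsIrreducible 5 ∧
    ((3 : ℤ) ∣ W'.Δ → (3 : ℤ) ∣ W.Δ) ∧ Congr2 3 W W'

/-- **(Switch at `5`, from good to multiplicative at `2`)**: `W` good at `2`, `a_2(W) = ± 2`. -/
def Switch5Two : Prop := ∀ W : WeierstrassCurve ℤ, W.Δ ≠ 0 → W.IsSemistableModel →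
  ¬ (2 : ℤ) ∣ W.Δ → (W.apOfModel 2 = 2 ∨ W.apOfModel 2 = -2) → W.ModRepIsIrreducible 5 →
  ∃ W' : WeierstrassCurve ℤ, W'.Δ ≠ 0 ∧ W'.IsSemistableModel ∧ (2 : ℤ) ∣ W'.Δ ∧
    W'.ModRepIsIrreducible 3 ∧ ¬ 3 ∣ padicValInt 2 W'.Δ ∧
    ((5 : ℤ) ∣ W'.Δ → (5 : ℤ) ∣ W.Δ) ∧ Congr2 5 W W'

/-- **(Switch at `5` with control at `5`)**: `W` good at `2`, `W[3]` reducible. -/
def Switch5Gen : Prop := ∀ W : WeierstrassCurve ℤ, W.Δ ≠ 0 → W.IsSemistableModel →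
  ¬ (2 : ℤ) ∣ W.Δ → ¬ W.ModRepIsIrreducible 3 → W.ModRepIsIrreducible 5 →
  ∃ W' : WeierstrassCurve ℤ, W'.Δ ≠ 0 ∧ W'.IsSemistableModel ∧ W'.ModRepIsIrreducible 3 ∧
    ((5 : ℤ) ∣ W'.Δ → (5 : ℤ) ∣ W.Δ) ∧ Congr2 5 W W'

end Fermat.Agent.P2
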