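import Mathlib
import Fermat.Agent.H01.P2.Props
import Fermat.Agent.ZF.ThmZ
import Fermat.Agent.TFin.Lift
import Fermat.Agent.S51

/-!
# Phase two: wiring of the modularity of all semistable curves
-/

set_option autoImplicit false

namespace Fermat.Agent.P2

open WeierstrassCurve WeierstrassCurve.Affine WeierstrassCurve.Affine.Point
open scoped WeierstrassCurve.Affine
open Fermat.Agent.Ell Fermat.Agent.H12.LL CongruenceSubgroup ModularFormClass

theorem Congr2.of_congr {p : ℕ} {W W' : WeierstrassCurve ℤ} (h : Congr p W W') :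
    Congr2 p W W' := fun ℓ hℓ _ hp hg hg' => h ℓ hℓ hg hg' hp

theorem Congr2.refl {p : ℕ} (W : WeierstrassCurve ℤ) : Congr2 p W W :=
  fun ℓ _ _ _ _ _ => by simp

/-- residual modularity is inherited by congruent curves, with control at `p` -/
theorem rmEven_of_exact {p : ℕ} (hp : p.Prime) (hp2 : p ≠ 2) {W W' : WeierstrassCurve ℤ}
    (h : Mlc1IsModularModelOfExactConductorLevel W')
    (hpΔ : (p : ℤ) ∣ W'.Δ → (p : ℤ) ∣ W.Δ) (hcong : Congr2 p W W') : RMeven p W := by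
  obtain ⟨N, hN, hsq, hsupp, f, hf, hfW'⟩ := h
  -- the level `lcm N 2`
  obtain ⟨M, hM, hMsq, hNM, h2M, hMN⟩ : ∃ M : ℕ, 0 < M ∧ Squarefree M ∧ N ∣ M ∧ 2 ∣ M ∧
      (∀ q : ℕ, q.Prime → q ∣ M → q ∣ N ∨ q = 2) := by
    by_cases h2 : 2 ∣ N
    · exact ⟨N, hN, hsq, dvd_rfl, h2, fun q _ h => Or.inl h⟩
    · refine ⟨N * 2, by omega, ?_, dvd_mul_right _ _, dvd_mul_left _ _, fun q hq h => ?_⟩
      · rw [Nat.squarefree_mul ((Nat.Prime.coprime_iff_not_dvd Nat.prime_two).mpr h2).symm]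
        exact ⟨hsq, Nat.prime_two.prime.squarefree⟩
      · rcases (Nat.Prime.dvd_mul hq).mp h with h | h
        · exact Or.inl h
        · exact Or.inr ((Nat.prime_dvd_prime_iff_eq hq Nat.prime_two).mp h)
  have : NeZero N := ⟨hN.ne'⟩
  have : NeZero M := ⟨hM.ne'⟩
  obtain ⟨g, hg, hgf⟩ := exists_eigenform_of_dvd hNM hf
  refine ⟨M, hM, hMsq, h2M, fun hpM => ?_, ?_⟩
  · rcases hMN p hp hpM with h | h
    · exact hpΔ ((hsupp p hp).mp h)
    · exact absurd h hp2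
  obtain ⟨𝔪, hmax, hmem⟩ := FLTPrelim.exists_maximalIdeal_natCast_prime_mem (p := p) hp
  refine ⟨g, 𝔪, hg, hmax, hmem, fun ℓ hℓ hgood hℓM hℓp => ?_⟩
  have hℓN : ¬ ℓ ∣ N := fun h => hℓM (h.trans hNM)
  have hℓ2 : ℓ ≠ 2 := by
    rintro rfl
    exact hℓM h2M
  have hgood' : W'.IsGoodPrimeFor ℓ := fun h => hℓN ((hsupp ℓ hℓ).mpr h)
  refine ⟨((W'.apOfModel ℓ : ℤ) : integralClosure ℤ ℂ), ?_, ?_⟩
  · rw [hgf ℓ hℓ hℓM, hfW' ℓ hℓ hgood' hℓN]
    simp
  · obtain ⟨c, hc⟩ := hcong ℓ hℓ hℓ2 hℓp hgood hgood'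
    have : (((W'.apOfModel ℓ : ℤ) : integralClosure ℤ ℂ) -
        ((W.apOfModel ℓ : ℤ) : integralClosure ℤ ℂ)) =
        ((p : ℕ) : integralClosure ℤ ℂ) * ((c : ℤ) : integralClosure ℤ ℂ) := by
      rw [← Int.cast_sub, hc]
      push_cast
      ring
    rw [this]
    exact Ideal.mul_mem_right _ _ hmem

/-! ## Even discriminant -/

/-- residual modularity at `3` in the even case -/
theorem rmEven_three_even (W : WeierstrassCurve ℤ) (hΔ : W.Δ ≠ 0) (hW : W.IsSemistableModel)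
    (h2 : (2 : ℤ) ∣ W.Δ) : RMeven 3 W := by
  obtain ⟨W', hneg, hss, h2', hodd, hthree, h3', hcong⟩ := H07.Sel.selection' W hΔ hW h2
  have hZW' : ZCurve W' := ⟨hneg, hss, h2', hodd, hthree,
    H07.Sel.modTwo_irreducible W' hneg hss h2' hodd⟩
  exact rmEven_of_exact Nat.prime_three (by norm_num) (exact_of_thmZ ZF.thmZ hZW')
    (by exact_mod_cast h3')
    (fun ℓ hℓ _ h3 hg hg' => by exact_mod_cast hcong ℓ hℓ hg hg' h3)

/-- even discriminant, `W[5]` irreducible (known) -/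
theorem exact_even_five (W : WeierstrassCurve ℤ) (hΔ : W.Δ ≠ 0) (hW : W.IsSemistableModel)
    (h2 : (2 : ℤ) ∣ W.Δ) (hirr : W.ModRepIsIrreducible 5) :
    Mlc1IsModularModelOfExactConductorLevel W :=
  main_five' ZF.thmZ TFin.lift W hΔ hW h2 hirr

/-- even discriminant, `W[3]` irreducible -/
theorem exact_even_three (h32 : LiftThreeTwo) (W : WeierstrassCurve ℤ) (hΔ : W.Δ ≠ 0)
    (hW : W.IsSemistableModel) (h2 : (2 : ℤ) ∣ W.Δ) (hirr : W.ModRepIsIrreducible 3) :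
    Mlc1IsModularModelOfExactConductorLevel W := by
  by_cases hv : 3 ∣ padicValInt 2 W.Δ
  · exact h32 W hΔ hW h2 hv hirr (rmEven_three_even W hΔ hW h2)
  · exact main_three' ZF.thmZ TFin.lift W hΔ hW h2 hirr hv

/-! ## Good reduction at `2` -/

/-- good reduction at `2`, `a_2 = ± 2`, `W[5]` irreducible -/
theorem exact_odd_five_two (h5 : LiftOdd 5) (hS2 : Switch5Two) (W : WeierstrassCurve ℤ)
    (hΔ : W.Δ ≠ 0) (hW : W.IsSemistableModel) (h2 : ¬ (2 : ℤ) ∣ W.Δ)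
    (ha : W.apOfModel 2 = 2 ∨ W.apOfModel 2 = -2) (hirr : W.ModRepIsIrreducible 5) :
    Mlc1IsModularModelOfExactConductorLevel W := by
  obtain ⟨W', hΔ', hW', h2', hirr', hv', h5', hcong⟩ := hS2 W hΔ hW h2 ha hirr
  exact h5 W hΔ hW h2 hirr (rmEven_of_exact Nat.prime_five (by norm_num)
    (main_three' ZF.thmZ TFin.lift W' hΔ' hW' h2' hirr' hv') (by exact_mod_cast h5') hcong)

/-- residual modularity at `3` for curves with good reduction at `2` -/
theorem rmEven_three_odd (h5 : LiftOdd 5) (hSM : Sel3Mult) (hSG : Sel3Good) (hS2 : Switch5Two)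
    (W : WeierstrassCurve ℤ) (hΔ : W.Δ ≠ 0) (hW : W.IsSemistableModel) (h2 : ¬ (2 : ℤ) ∣ W.Δ)
    (hirr : W.ModRepIsIrreducible 3) : RMeven 3 W := by
  by_cases ha : (3 : ℤ) ∣ W.apOfModel 2
  · obtain ⟨W', hneg, hss, h2', hodd, hthree, h3', hcong⟩ := hSM W hΔ hW h2 ha hirr
    have hZW' : ZCurve W' := ⟨hneg, hss, h2', hodd, hthree,
      H07.Sel.modTwo_irreducible W' hneg hss h2' hodd⟩
    exact rmEven_of_exact Nat.prime_three (by norm_num) (exact_of_thmZ ZF.thmZ hZW')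
      (by exact_mod_cast h3') hcong
  · obtain ⟨W', hΔ', hW', h2', ha', hirr', h3', hcong⟩ := hSG W hΔ hW h2 ha hirr
    exact rmEven_of_exact Nat.prime_three (by norm_num)
      (exact_odd_five_two h5 hS2 W' hΔ' hW' h2' ha' hirr') (by exact_mod_cast h3') hcong

/-- good reduction at `2`, `W[3]` irreducible -/
theorem exact_odd_three (h5 : LiftOdd 5) (h3 : LiftOdd 3) (hSM : Sel3Mult) (hSG : Sel3Good)
    (hS2 : Switch5Two) (W : WeierstrassCurve ℤ) (hΔ : W.Δ ≠ 0) (hW : W.IsSemistableModel)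
    (h2 : ¬ (2 : ℤ) ∣ W.Δ) (hirr : W.ModRepIsIrreducible 3) :
    Mlc1IsModularModelOfExactConductorLevel W :=
  h3 W hΔ hW h2 hirr (rmEven_three_odd h5 hSM hSG hS2 W hΔ hW h2 hirr)

/-! ## The general case -/

/-- `W[3]` irreducible -/
theorem exact_three (h5 : LiftOdd 5) (h3 : LiftOdd 3) (h32 : LiftThreeTwo) (hSM : Sel3Mult)
    (hSG : Sel3Good) (hS2 : Switch5Two) (W : WeierstrassCurve ℤ) (hΔ : W.Δ ≠ 0)
    (hW : W.IsSemistableModel) (hirr : W.ModRepIsIrreducible 3) :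
    Mlc1IsModularModelOfExactConductorLevel W := by
  by_cases h2 : (2 : ℤ) ∣ W.Δ
  · exact exact_even_three h32 W hΔ hW h2 hirr
  · exact exact_odd_three h5 h3 hSM hSG hS2 W hΔ hW h2 hirr

/-- **FULL from the open inputs.** -/
theorem full_of (h5 : LiftOdd 5) (h3 : LiftOdd 3) (h32 : LiftThreeTwo) (hSM : Sel3Mult)
    (hSG : Sel3Good) (hS2 : Switch5Two) (hSw : Switch5Gen) : Full := by
  intro W hΔ hW
  by_cases hirr : W.ModRepIsIrreducible 3
  · exact exact_three h5 h3 h32 hSM hSG hS2 W hΔ hW hirr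
  · have hirr5 : W.ModRepIsIrreducible 5 := by
      rcases S51.result W hΔ hW with h | h
      · exact absurd h hirr
      · exact h
    by_cases h2 : (2 : ℤ) ∣ W.Δ
    · exact exact_even_five W hΔ hW h2 hirr5
    · obtain ⟨W', hΔ', hW', hirr', h5', hcong⟩ := hSw W hΔ hW h2 hirr hirr5
      exact h5 W hΔ hW h2 hirr5 (rmEven_of_exact Nat.prime_five (by norm_num)
        (exact_three h5 h3 h32 hSM hSG hS2 W' hΔ' hW' hirr') (by exact_mod_cast h5') hcong)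

/-! ## The frozen statements -/

/-- S59 -/
theorem s59_of_full (h : Full) : H26.Prop59 := fun _ _ W hΔ hW _ _ _ _ _ _ => h W hΔ hW

/-- S60 -/
theorem s60_of_full (h : Full) : H26.Prop60 := by
  intro W hΔ hW
  obtain ⟨N, hN, -, -, hmod⟩ := h W hΔ hW
  exact ⟨W, ⟨1, by rw [one_smul]⟩, N, hN, hmod⟩

/-- S50 from residual modularity at `3` -/
theorem s50_of_rm {W : WeierstrassCurve ℤ}
    (h : ∃ N : ℕ, 0 < N ∧ Squarefree N ∧ W.IsResiduallyModularOfLevel 3 N) :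
    ∃ M : ℕ, 0 < M ∧ W.IsResiduallyModularOfLevel 3 M ∧
      (∀ q : ℕ, q.Prime → q ≠ 3 → ¬ q ^ 3 ∣ M) ∧
      (3 ^ 2 ∣ M →
        ∀ A : ValuationSubring (AlgebraicClosure ℚ), A.LiesOverPrime 3 →
          ∀ x : Submodule.torsionBy ℤ
              ((W.map (Int.castRingHom ℚ))⁄(AlgebraicClosure ℚ)).Point (3 : ℕ),
            (∀ σ ∈ A.inertiaSubgroupIn ℚ, σ • x = x) → x = 0) := by
  obtain ⟨N, hN, hsq, hR⟩ := h
  have hsq' : ∀ q : ℕ, q.Prime → ¬ q ^ 2 ∣ N := by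
    intro q hq h
    exact Nat.squarefree_iff_prime_squarefree.mp hsq q hq (by rwa [← pow_two])
  exact ⟨N, hN, hR, fun q hq _ h => hsq' q hq ((pow_dvd_pow q (by norm_num)).trans h),
    fun h => absurd h (hsq' 3 Nat.prime_three)⟩

/-- S50 from `Full` -/
theorem s50_of_full (h : Full) : H26.Prop50 := by
  intro W hΔ hW _
  exact s50_of_rm (resid_of_exact Nat.prime_three (h W hΔ hW) (fun ℓ _ _ _ _ => by simp))

/-- S50 from the inputs at `5` only -/
theorem s50_of (h5 : LiftOdd 5) (hSM : Sel3Mult) (hSG : Sel3Good) (hS2 : Switch5Two) :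
    H26.Prop50 := by
  intro W hΔ hW hirr
  apply s50_of_rm
  by_cases h2 : (2 : ℤ) ∣ W.Δ
  · obtain ⟨N, h1, h2, -, -, h3⟩ := rmEven_three_even W hΔ hW h2
    exact ⟨N, h1, h2, h3⟩
  · obtain ⟨N, h1, h2, -, -, h3⟩ := rmEven_three_odd h5 hSM hSG hS2 W hΔ hW h2 hirr
    exact ⟨N, h1, h2, h3⟩

end Fermat.Agent.P2
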