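import Mathlib
import Fermat.Agent.H01.P2.Full
import Fermat.Agent.H14U.LiftFin
import Fermat.Agent.H19.Sw5Gen

/-!
# Phase two: the modularity of all semistable curves from the remaining inputs
-/

set_option autoImplicit false

namespace Fermat.Agent.P2

open WeierstrassCurve Fermat.Agent.Ell Fermat.Agent.H12.LL

/-- **FULL from Mazur's principle at `2` and the three selections.** -/
theorem full_of_mz2 (hm3 : H18O.Mz2All 3) (hm5 : H18O.Mz2All 5) (hSM : Sel3Mult)
    (hSG : Sel3Good) (hS2 : Switch5Two) : Full :=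
  full_of (H14U.liftOdd_five hm5) (H14U.liftOdd_three hm3) (H14U.liftThreeTwo hm3) hSM hSG hS2
    switch5Gen

/-- S50 from Mazur's principle at `2` (`p = 5`) and the three selections -/
theorem s50_of_mz2 (hm5 : H18O.Mz2All 5) (hSM : Sel3Mult) (hSG : Sel3Good) (hS2 : Switch5Two) :
    H26.Prop50 :=
  s50_of (H14U.liftOdd_five hm5) hSM hSG hS2

/-- S59 -/
theorem s59_of_mz2 (hm3 : H18O.Mz2All 3) (hm5 : H18O.Mz2All 5) (hSM : Sel3Mult)
    (hSG : Sel3Good) (hS2 : Switch5Two) : H26.Prop59 :=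
  s59_of_full (full_of_mz2 hm3 hm5 hSM hSG hS2)

/-- S60 -/
theorem s60_of_mz2 (hm3 : H18O.Mz2All 3) (hm5 : H18O.Mz2All 5) (hSM : Sel3Mult)
    (hSG : Sel3Good) (hS2 : Switch5Two) : H26.Prop60 :=
  s60_of_full (full_of_mz2 hm3 hm5 hSM hSG hS2)

end Fermat.Agent.P2
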